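import Fermat.Agent.S18.RED8089.FinGen

/-!
# S18, package RED, piece R6 (helper8089): `C_mid = C_fin + j^m C_inf` for `m ≫ 0` (rational form)

For the Prelude charts `C_fin = chartAlgFin N ℓ`, `C_inf = chartAlgInf N ℓ`, `C_mid = chartAlgMid N ℓ`
inside `ℚ(X₀(N))`: there is `m₀` such that for all `m ≥ m₀` every `z ∈ C_mid` is `z₁ + j^m z₂` with
`z₁ ∈ C_fin`, `z₂ ∈ C_inf`.  (Finite generation of `C_fin` over `ℤ_(ℓ)[j]` + `C_mid = C_fin[1/j]`.)
-/

set_option autoImplicit false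
set_option linter.style.haveILetI false

noncomputable section

namespace Fermat.Agent.S18.RED8089

open ModularCurve ModularCurve.IgusaScheme Polynomial Fermat.Agent.S28 Fermat.Agent.S28.QRed

variable (N : ℕ) [NeZero N] (ℓ : ℕ) [Fact ℓ.Prime]

set_option quotPrecheck false in
local notation "Rl" => ↥(GaloisRep.ratLocalizedAt ℓ)

set_option quotPrecheck false in
local notation "FF" => ↥(modularFunctionFieldFull N)

theorem evF_mem_chartAlgFin (p : Rl[X]) : evF N ℓ (jFull N) p ∈ chartAlgFin N ℓ :=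
  adjoin_le_chartAlg N ℓ _ (Polynomial.aeval_mem_adjoin_singleton _ _)

theorem jFull_inv_mem_chartAlgInf : (jFull N)⁻¹ ∈ chartAlgInf N ℓ :=
  subset_chartAlg N ℓ _ (Set.mem_singleton _)

/-- The "negative part": `j^(-E) Q(j) ∈ ℤ_(ℓ)[1/j]` when `deg Q < E`. -/
theorem inv_pow_mul_evF_mem (Q : Rl[X]) (E : ℕ) (hQ : Q.natDegree < E) :
    (jFull N)⁻¹ ^ E * evF N ℓ (jFull N) Q ∈ chartAlgInf N ℓ := by
  have hj0 := jFull_ne_zero N
  have hsum : evF N ℓ (jFull N) Q =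
      ∑ k ∈ Finset.range E, algebraMap Rl FF (Q.coeff k) * jFull N ^ k := by
    conv_lhs => rw [Q.as_sum_range' E hQ]
    rw [map_sum]
    refine Finset.sum_congr rfl fun k _ => ?_
    show aeval (jFull N) (monomial k (Q.coeff k)) = _
    rw [aeval_monomial]
  rw [hsum, Finset.mul_sum]
  refine Subalgebra.sum_mem _ fun k hk => ?_
  have hk' : k < E := Finset.mem_range.mp hk
  have h1 : (jFull N)⁻¹ ^ E * (algebraMap Rl FF (Q.coeff k) * jFull N ^ k) =
      algebraMap Rl FF (Q.coeff k) * (jFull N)⁻¹ ^ (E - k) := by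
    have h2 : (jFull N)⁻¹ ^ E = (jFull N)⁻¹ ^ (E - k) * (jFull N)⁻¹ ^ k := by
      rw [← pow_add, Nat.sub_add_cancel hk'.le]
    have h3 : (jFull N)⁻¹ ^ k * jFull N ^ k = 1 := by
      rw [← mul_pow, inv_mul_cancel₀ hj0, one_pow]
    calc (jFull N)⁻¹ ^ E * (algebraMap Rl FF (Q.coeff k) * jFull N ^ k)
        = algebraMap Rl FF (Q.coeff k) * (jFull N)⁻¹ ^ (E - k) *
            ((jFull N)⁻¹ ^ k * jFull N ^ k) := by rw [h2]; ring
      _ = algebraMap Rl FF (Q.coeff k) * (jFull N)⁻¹ ^ (E - k) := by rw [h3, mul_one]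
  rw [h1]
  exact mul_mem (Subalgebra.algebraMap_mem _ _) (pow_mem (jFull_inv_mem_chartAlgInf N ℓ) _)

/-- **R6, rational form.** -/
theorem mid_split_rat :
    ∃ m₀ : ℕ, ∀ m : ℕ, m₀ ≤ m → ∀ z ∈ chartAlgMid N ℓ,
      ∃ z₁ ∈ chartAlgFin N ℓ, ∃ z₂ ∈ chartAlgInf N ℓ, z = z₁ + jFull N ^ m * z₂ := by
  classical
  have hj0 := jFull_ne_zero N
  obtain ⟨r, b, hb, hgen⟩ := chartAlgFin_fg N ℓ
  -- each generator is `j^e` times an element of `C_inf`
  have hb_inf : ∀ i, ∃ e : ℕ, (jFull N)⁻¹ ^ e * b i ∈ chartAlgInf N ℓ := by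
    intro i
    have hmid2 : b i ∈ chartAlg N ℓ (insert ((jFull N)⁻¹)⁻¹ {(jFull N)⁻¹}) := by
      rw [inv_inv]
      exact chartAlg_mono N ℓ (sFin_subset N) (hb i)
    exact exists_pow_mul_mem_chartAlg (Set.mem_singleton _) (inv_ne_zero hj0) hmid2
  choose e he using hb_inf
  let m₀ : ℕ := Finset.univ.sup e
  have he' : ∀ i, (jFull N)⁻¹ ^ m₀ * b i ∈ chartAlgInf N ℓ := by
    intro i
    have hle : e i ≤ m₀ := Finset.le_sup (f := e) (Finset.mem_univ i)
    have h1 : (jFull N)⁻¹ ^ m₀ * b i = (jFull N)⁻¹ ^ (m₀ - e i) * ((jFull N)⁻¹ ^ e i * b i) := by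
      rw [← mul_assoc, ← pow_add, Nat.sub_add_cancel hle]
    rw [h1]
    exact mul_mem (pow_mem (jFull_inv_mem_chartAlgInf N ℓ) _) (he i)
  refine ⟨m₀, fun m hm z hz => ?_⟩
  have hmid : z ∈ chartAlg N ℓ (insert (jFull N)⁻¹ {jFull N}) := by
    rw [show insert (jFull N)⁻¹ ({jFull N} : Set FF) = {jFull N, (jFull N)⁻¹}
      from Set.pair_comm _ _]
    exact hz
  obtain ⟨E, hE⟩ := exists_pow_mul_mem_chartAlg (Set.mem_singleton _) hj0 hmid
  obtain ⟨p, hp⟩ := hgen _ hE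
  -- split `p i = X^E * P i + Q i`
  have hmonic : (X ^ E : Rl[X]).Monic := monic_X_pow E
  let P : Fin r → Rl[X] := fun i => p i /ₘ X ^ E
  let Q : Fin r → Rl[X] := fun i => p i %ₘ X ^ E
  have hPQ : ∀ i, p i = Q i + X ^ E * P i := fun i => (modByMonic_add_div (p i) (X ^ E)).symm
  have hQdeg : ∀ i, Q i = 0 ∨ (Q i).natDegree < E := by
    intro i
    rcases Nat.eq_zero_or_pos E with h0 | hpos
    · left
      show p i %ₘ X ^ E = 0
      rw [h0, pow_zero, modByMonic_one]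
    · right
      have h1 := natDegree_modByMonic_lt (p i) hmonic (by
        intro h
        have h2 := congrArg natDegree h
        rw [natDegree_X_pow, natDegree_one] at h2
        omega)
      rwa [natDegree_X_pow] at h1
  have hQmem : ∀ i, (jFull N)⁻¹ ^ E * evF N ℓ (jFull N) (Q i) ∈ chartAlgInf N ℓ := by
    intro i
    rcases hQdeg i with h0 | hlt
    · rw [h0, map_zero, mul_zero]
      exact zero_mem _
    · exact inv_pow_mul_evF_mem N ℓ (Q i) E hlt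
  have hinvE : (jFull N)⁻¹ ^ E * jFull N ^ E = 1 := by
    rw [← mul_pow, inv_mul_cancel₀ hj0, one_pow]
  have hz : z = ∑ i, (evF N ℓ (jFull N) (P i) +
      (jFull N)⁻¹ ^ E * evF N ℓ (jFull N) (Q i)) * b i := by
    have h1 : z = (jFull N)⁻¹ ^ E * (jFull N ^ E * z) := by
      rw [← mul_assoc, hinvE, one_mul]
    rw [h1, hp, Finset.mul_sum]
    refine Finset.sum_congr rfl fun i _ => ?_
    rw [hPQ i, map_add, map_mul, map_pow, evF_X]
    have h2 : (jFull N)⁻¹ ^ E * ((evF N ℓ (jFull N) (Q i) +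
        jFull N ^ E * evF N ℓ (jFull N) (P i)) * b i) =
        ((jFull N)⁻¹ ^ E * jFull N ^ E * evF N ℓ (jFull N) (P i) +
          (jFull N)⁻¹ ^ E * evF N ℓ (jFull N) (Q i)) * b i := by ring
    rw [h2, hinvE, one_mul]
  refine ⟨∑ i, evF N ℓ (jFull N) (P i) * b i,
    Subalgebra.sum_mem _ fun i _ => mul_mem (evF_mem_chartAlgFin N ℓ _) (hb i),
    ∑ i, (jFull N)⁻¹ ^ (m - m₀) * ((jFull N)⁻¹ ^ E * evF N ℓ (jFull N) (Q i)) *
      ((jFull N)⁻¹ ^ m₀ * b i),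
    Subalgebra.sum_mem _ fun i _ => mul_mem (mul_mem (pow_mem (jFull_inv_mem_chartAlgInf N ℓ) _)
      (hQmem i)) (he' i), ?_⟩
  rw [hz, Finset.mul_sum, ← Finset.sum_add_distrib]
  refine Finset.sum_congr rfl fun i _ => ?_
  have h3 : jFull N ^ m * ((jFull N)⁻¹ ^ (m - m₀) * (jFull N)⁻¹ ^ m₀) = 1 := by
    rw [← pow_add, Nat.sub_add_cancel hm, ← mul_pow, mul_inv_cancel₀ hj0, one_pow]
  calc (evF N ℓ (jFull N) (P i) + (jFull N)⁻¹ ^ E * evF N ℓ (jFull N) (Q i)) * b i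
      = evF N ℓ (jFull N) (P i) * b i +
          1 * ((jFull N)⁻¹ ^ E * evF N ℓ (jFull N) (Q i) * b i) := by ring
    _ = evF N ℓ (jFull N) (P i) * b i +
          jFull N ^ m * ((jFull N)⁻¹ ^ (m - m₀) * (jFull N)⁻¹ ^ m₀) *
            ((jFull N)⁻¹ ^ E * evF N ℓ (jFull N) (Q i) * b i) := by rw [h3]
    _ = _ := by ring

end Fermat.Agent.S18.RED8089
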