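import Fermat.Agent.S18.DefsMod
import Fermat.Agent.S18.RED8089.MidSplitRat
import Fermat.Agent.S18.RED1249.QExp

/-!
# S18, package RED, piece R6 (helper8089): `A_mid = A_fin + j^m A_inf` over the valuation ring `A`

`exists_mid_split` below is the frozen statement of `Fermat/Agent/S18/Red.lean` (R6), proved from
the rational form `mid_split_rat` and the `q`-expansion principle (helper1249's `RED1249/QExp.lean`).

Also here (reusable for R1): `ℤ_(ℓ) ⊆ A` for `A` over `ℓ` (`inclA`), realisation of chart elements as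
series over `A` (`exists_series_of_mem_chartAlg`), and the closure properties `isChartInt_zero/add/C_mul`.
-/

set_option autoImplicit false
set_option linter.style.haveILetI false
set_option linter.unusedSectionVars false
set_option linter.unusedVariables false

noncomputable section

namespace Fermat.Agent.S18.RED8089

open ModularCurve AlgebraicCurve ModularCurve.IgusaScheme Fermat.Agent.S28 Fermat.Agent.S28.QRed

variable {ℓ : ℕ} [Fact ℓ.Prime] {A : ValuationSubring (AlgebraicClosure ℚ)} {N : ℕ} [NeZero N]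

set_option quotPrecheck false in
local notation "Rl" => ↥(GaloisRep.ratLocalizedAt ℓ)

set_option quotPrecheck false in
local notation "FF" => ↥(modularFunctionFieldFull N)

/-! ### `ℤ_(ℓ) ⊆ A` -/

omit [Fact ℓ.Prime] in
theorem natCast_inv_mem_of_coprime (hA : A.LiesOverPrime ℓ) {d : ℕ} (hd : d.Coprime ℓ) :
    ((d : AlgebraicClosure ℚ))⁻¹ ∈ A := by
  rw [← A.valuation_le_one_iff, map_inv₀]
  have hdA : A.valuation (d : AlgebraicClosure ℚ) ≤ 1 :=
    (A.valuation_le_one_iff _).mpr (natCast_mem A d)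
  have hℓ : A.valuation (ℓ : AlgebraicClosure ℚ) < 1 := A.mem_nonunits_iff.mp hA
  have hint : ∀ u : ℤ, A.valuation (u : AlgebraicClosure ℚ) ≤ 1 := fun u =>
    (A.valuation_le_one_iff _).mpr (intCast_mem A u)
  have hnot : ¬ A.valuation (d : AlgebraicClosure ℚ) < 1 := by
    intro hlt
    obtain ⟨u, w, huw⟩ := Nat.isCoprime_iff_coprime.mpr hd
    have h1 : (u : AlgebraicClosure ℚ) * d + (w : AlgebraicClosure ℚ) * ℓ = 1 := by
      have := congrArg (Int.cast : ℤ → AlgebraicClosure ℚ) huw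
      push_cast at this
      exact this
    have h2 : A.valuation ((u : AlgebraicClosure ℚ) * d + (w : AlgebraicClosure ℚ) * ℓ) < 1 := by
      apply Valuation.map_add_lt
      · rw [map_mul]
        calc A.valuation (u : AlgebraicClosure ℚ) * A.valuation (d : AlgebraicClosure ℚ)
            ≤ 1 * A.valuation (d : AlgebraicClosure ℚ) := mul_le_mul_left (hint u) _
          _ < 1 := by rw [one_mul]; exact hlt
      · rw [map_mul]
        calc A.valuation (w : AlgebraicClosure ℚ) * A.valuation (ℓ : AlgebraicClosure ℚ)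
            ≤ 1 * A.valuation (ℓ : AlgebraicClosure ℚ) := mul_le_mul_left (hint w) _
          _ < 1 := by rw [one_mul]; exact hℓ
    rw [h1, map_one] at h2
    exact lt_irrefl _ h2
  have h1 : A.valuation (d : AlgebraicClosure ℚ) = 1 := le_antisymm hdA (not_lt.mp hnot)
  rw [h1, inv_one]

omit [Fact ℓ.Prime] in
theorem ratLoc_mem_of_liesOver (hA : A.LiesOverPrime ℓ) (x : Rl) :
    algebraMap ℚ (AlgebraicClosure ℚ) (x : ℚ) ∈ A := by
  have hx : algebraMap ℚ (AlgebraicClosure ℚ) (x : ℚ) =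
      ((x : ℚ).num : AlgebraicClosure ℚ) * (((x : ℚ).den : ℕ) : AlgebraicClosure ℚ)⁻¹ := by
    conv_lhs => rw [← Rat.num_div_den (x : ℚ)]
    rw [map_div₀, map_intCast, map_natCast, div_eq_mul_inv]
  rw [hx]
  exact mul_mem (intCast_mem A _) (natCast_inv_mem_of_coprime hA x.2)

/-- The inclusion `ℤ_(ℓ) → A` for a valuation ring `A` of `ℚ̄` over `ℓ`. -/
def inclA (hA : A.LiesOverPrime ℓ) : Rl →+* A :=
  ((algebraMap ℚ (AlgebraicClosure ℚ)).comp (GaloisRep.ratLocalizedAt ℓ).subtype).codRestrict A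
    (fun x => ratLoc_mem_of_liesOver hA x)

omit [Fact ℓ.Prime] in
theorem subtype_comp_inclA (hA : A.LiesOverPrime ℓ) :
    A.subtype.comp (inclA hA) =
      (algebraMap ℚ (AlgebraicClosure ℚ)).comp (GaloisRep.ratLocalizedAt ℓ).subtype :=
  RingHom.ext fun _ => rfl

omit [Fact ℓ.Prime] in
/-- A series over `ℤ_(ℓ)`, viewed over `A`, has generic fibre `coeffEmb (iota f)`. -/
theorem coeffMap_subtype_inclA (hA : A.LiesOverPrime ℓ) (f : LaurentSeries Rl) :
    coeffMap A.subtype (coeffMap (inclA hA) f) = coeffEmb (AlgebraicClosure ℚ) (iota ℓ f) := by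
  rw [coeffMap_coeffMap, subtype_comp_inclA, coeffEmb, iota, coeffMap_coeffMap]

theorem coeffMap_subtype_injective :
    Function.Injective (coeffMap A.subtype : LaurentSeries A → LaurentSeries (AlgebraicClosure ℚ)) := by
  intro x y h
  ext n
  have := congrArg (fun z : LaurentSeries (AlgebraicClosure ℚ) => z.coeff n) h
  simpa using this

/-- Chart elements are series over `A` (`q`-expansion principle + `ℤ_(ℓ) ⊆ A`). -/
theorem exists_series_of_mem_chartAlg (hA : A.LiesOverPrime ℓ) (S : Set FF)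
    (hS : ∀ s ∈ S, ∃ a : LaurentSeries Rl, iota ℓ a = valF N s) (x : FF)
    (hx : x ∈ chartAlg N ℓ S) :
    ∃ y : LaurentSeries A, coeffMap A.subtype y =
      coeffEmb (AlgebraicClosure ℚ) ((x : FF) : LaurentSeries ℚ) := by
  obtain ⟨a, ha⟩ := RED1249.valF_mem_range_iota_of_mem_chartAlg ℓ N S hS x hx
  exact ⟨coeffMap (inclA hA) a, by rw [coeffMap_subtype_inclA, ha]; rfl⟩

/-! ### Closure properties of `IsChartInt` -/

omit [Fact ℓ.Prime] in
theorem isChartInt_of_eq (S : Set FF) (x : chartAlg N ℓ S) {y : LaurentSeries A}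
    (hy : coeffMap A.subtype y = coeffEmb (AlgebraicClosure ℚ) ((x : FF) : LaurentSeries ℚ)) :
    IsChartInt ℓ A N S y := by
  show coeffMap A.subtype y ∈ chartSpan ℓ A N S
  rw [hy]
  exact Submodule.subset_span ⟨x, rfl⟩

omit [Fact ℓ.Prime] in
theorem isChartInt_zero (S : Set FF) : IsChartInt ℓ A N S (0 : LaurentSeries A) := by
  show coeffMap A.subtype 0 ∈ chartSpan ℓ A N S
  rw [map_zero]
  exact Submodule.zero_mem _

omit [Fact ℓ.Prime] in
theorem isChartInt_add' (S : Set FF) {y z : LaurentSeries A}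
    (hy : IsChartInt ℓ A N S y) (hz : IsChartInt ℓ A N S z) : IsChartInt ℓ A N S (y + z) := by
  show coeffMap A.subtype (y + z) ∈ chartSpan ℓ A N S
  rw [map_add]
  exact Submodule.add_mem _ hy hz

omit [Fact ℓ.Prime] in
theorem coeffMap_C_mul (a : A) (y : LaurentSeries A) :
    coeffMap A.subtype (HahnSeries.C a * y) = a • coeffMap A.subtype y := by
  ext n
  rw [HahnSeries.C_mul_eq_smul]
  rfl

omit [Fact ℓ.Prime] in
theorem isChartInt_C_mul (S : Set FF) (a : A) {y : LaurentSeries A}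
    (hy : IsChartInt ℓ A N S y) : IsChartInt ℓ A N S (HahnSeries.C a * y) := by
  show coeffMap A.subtype (HahnSeries.C a * y) ∈ chartSpan ℓ A N S
  rw [coeffMap_C_mul]
  exact Submodule.smul_mem _ a hy

/-! ### R6 -/

/-- **R6** (frozen statement `exists_mid_split` of `Fermat/Agent/S18/Red.lean`):
`A_mid = A_fin + j^m A_inf` for `m ≫ 0`. -/
theorem exists_mid_split (hℓN : ¬ ℓ ∣ N) (hA : A.LiesOverPrime ℓ) :
    ∃ m₀ : ℕ, ∀ m : ℕ, m₀ ≤ m → ∀ y : LaurentSeries A, IsIntMid ℓ A N y →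
      ∃ y₁ y₂ : LaurentSeries A, IsIntFin ℓ A N y₁ ∧ IsIntInf ℓ A N y₂ ∧
        y = y₁ + jqModC A ^ m * y₂ := by
  obtain ⟨m₀, hm₀⟩ := mid_split_rat N ℓ
  refine ⟨m₀, fun m hm y hy => ?_⟩
  have hjA : coeffMap A.subtype (jqModC A) = coeffEmb (AlgebraicClosure ℚ) jq := by
    rw [coeffMap_jqModC, coeffEmb, ← jqModC_rat, coeffMap_jqModC]
  have key : ∀ w ∈ chartSpan ℓ A N {jFull N, (jFull N)⁻¹},
      ∃ y₁ y₂ : LaurentSeries A, IsIntFin ℓ A N y₁ ∧ IsIntInf ℓ A N y₂ ∧
        w = coeffMap A.subtype (y₁ + jqModC A ^ m * y₂) := by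
    intro w hw
    induction hw using Submodule.span_induction with
    | mem w hw =>
      obtain ⟨x, rfl⟩ := hw
      obtain ⟨z₁, hz₁, z₂, hz₂, hz⟩ := hm₀ m hm (x : FF) x.2
      obtain ⟨y₁, hy₁⟩ := exists_series_of_mem_chartAlg hA {jFull N} (RED1249.hS_fin ℓ N) z₁ hz₁
      obtain ⟨y₂, hy₂⟩ :=
        exists_series_of_mem_chartAlg hA {(jFull N)⁻¹} (RED1249.hS_inf ℓ N) z₂ hz₂
      refine ⟨y₁, y₂, isChartInt_of_eq _ ⟨z₁, hz₁⟩ hy₁, isChartInt_of_eq _ ⟨z₂, hz₂⟩ hy₂, ?_⟩
      rw [map_add, map_mul, map_pow, hy₁, hy₂, hjA, ← map_pow, ← map_mul, ← map_add]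
      show coeffEmb (AlgebraicClosure ℚ) (valF N (x : FF)) = _
      rw [hz, map_add, map_mul, map_pow]
      rfl
    | zero =>
      exact ⟨0, 0, isChartInt_zero _, isChartInt_zero _, by simp⟩
    | add w w' _ _ hw hw' =>
      obtain ⟨y₁, y₂, h₁, h₂, h⟩ := hw
      obtain ⟨y₁', y₂', h₁', h₂', h'⟩ := hw'
      refine ⟨y₁ + y₁', y₂ + y₂', isChartInt_add' _ h₁ h₁', isChartInt_add' _ h₂ h₂', ?_⟩
      rw [h, h', ← map_add]
      congr 1
      ring
    | smul a w _ hw =>
      obtain ⟨y₁, y₂, h₁, h₂, h⟩ := hw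
      refine ⟨HahnSeries.C a * y₁, HahnSeries.C a * y₂, isChartInt_C_mul _ a h₁,
        isChartInt_C_mul _ a h₂, ?_⟩
      rw [h, ← coeffMap_C_mul]
      congr 1
      ring
  obtain ⟨y₁, y₂, h₁, h₂, h⟩ := key _ hy
  exact ⟨y₁, y₂, h₁, h₂, coeffMap_subtype_injective h⟩

end Fermat.Agent.S18.RED8089
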